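import Mathlib.Analysis.SpecificLimits.Basic
import Mathlib.Data.Nat.Digits.Defs
import Mathlib.Tactic

/-!
# Kempner's series

At most `(b - 1) ^ (j + 1)` numbers with `j + 1` digits in base `b` avoid a given digit.
-/

set_option autoImplicit false

open Finset

namespace FA.Denumerant

theorem card_avoid_le {b d : ℕ} (hb : 2 ≤ b) (hd : d < b) (j : ℕ) :
    #((Ico (b ^ j) (b ^ (j + 1))).filter fun n => d ∉ Nat.digits b n) ≤ (b - 1) ^ (j + 1) := by
  have hcard : #((range b).erase d) = b - 1 := by
    rw [card_erase_of_mem (mem_range.2 hd), card_range]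
  induction j with
  | zero =>
    simp only [zero_add, pow_one]
    rw [← hcard]
    refine card_le_card fun n hn => ?_
    simp only [mem_filter, mem_Ico, pow_zero] at hn
    rw [Nat.digits_of_lt b n (by omega) hn.1.2, List.mem_singleton] at hn
    rw [mem_erase, mem_range]
    omega
  | succ j ih =>
    calc _ ≤ #(((Ico (b ^ j) (b ^ (j + 1))).filter fun n => d ∉ Nat.digits b n) ×ˢ
          (range b).erase d) := by
          refine card_le_card_of_injOn (fun n => (n / b, n % b)) (fun n hn => ?_) ?_
          · simp only [Finset.mem_coe, mem_filter, mem_Ico] at hn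
            obtain ⟨⟨h1, h2⟩, h3⟩ := hn
            have hpos : 0 < n := lt_of_lt_of_le (Nat.pow_pos (by omega)) h1
            rw [Nat.digits_def' (by omega) hpos, List.mem_cons, not_or] at h3
            simp only [Finset.mem_coe, mem_product, mem_filter, mem_Ico, mem_erase, mem_range]
            refine ⟨⟨⟨?_, ?_⟩, h3.2⟩, Ne.symm h3.1, Nat.mod_lt _ (by omega)⟩
            · rwa [Nat.le_div_iff_mul_le (by omega), ← pow_succ]
            · rwa [Nat.div_lt_iff_lt_mul (by omega), ← pow_succ]
          · intro n _ k _ h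
            simp only [Prod.mk.injEq] at h
            rw [← Nat.div_add_mod n b, ← Nat.div_add_mod k b, h.1, h.2]
      _ ≤ (b - 1) ^ (j + 1) * (b - 1) := by
          rw [card_product, hcard]
          exact Nat.mul_le_mul_right _ ih
      _ = (b - 1) ^ (j + 1 + 1) := (pow_succ _ _).symm

theorem summable_avoid {b d : ℕ} (hb : 2 ≤ b) (hd : d < b) :
    Summable fun n : ℕ => if d ∈ Nat.digits b n then (0 : ℝ) else 1 / (n : ℝ) := by
  set f : ℕ → ℝ := fun n => if d ∈ Nat.digits b n then (0 : ℝ) else 1 / (n : ℝ)
  have hf : ∀ n, 0 ≤ f n := fun n => by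
    simp only [f]
    split_ifs <;> positivity
  set x : ℝ := ((b - 1 : ℕ) : ℝ) / b
  have hb0 : (0 : ℝ) < b := Nat.cast_pos.2 (by omega)
  have hx0 : 0 ≤ x := by positivity
  have hx1 : x < 1 := by
    rw [div_lt_one hb0]
    exact_mod_cast (show b - 1 < b by omega)
  have hblock : ∀ j, ∑ n ∈ Ico (b ^ j) (b ^ (j + 1)), f n ≤ (b : ℝ) * x * x ^ j := by
    intro j
    rw [← sum_filter_add_sum_filter_not _ (fun n => d ∈ Nat.digits b n),
      sum_eq_zero fun n hn => if_pos (mem_filter.1 hn).2, zero_add]
    refine (sum_le_card_nsmul _ _ (1 / (b : ℝ) ^ j) fun n hn => ?_).trans ?_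
    · obtain ⟨hn1, hn2⟩ := mem_filter.1 hn
      simp only [f, if_neg hn2]
      exact one_div_le_one_div_of_le (by positivity) (by exact_mod_cast (mem_Ico.1 hn1).1)
    · rw [nsmul_eq_mul]
      calc _ ≤ (((b - 1) ^ (j + 1) : ℕ) : ℝ) * (1 / (b : ℝ) ^ j) := by
            gcongr
            exact card_avoid_le hb hd j
        _ = _ := by
            rw [Nat.cast_pow, pow_succ]
            simp only [x, div_pow]
            field_simp
  have htotal : ∀ L, ∑ n ∈ range (b ^ L), f n ≤ f 0 + ∑ j ∈ range L, (b : ℝ) * x * x ^ j := by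
    intro L
    induction L with
    | zero => simp
    | succ L ih =>
      rw [← sum_range_add_sum_Ico _ (Nat.pow_le_pow_right (show 0 < b by omega) L.le_succ),
        sum_range_succ]
      linarith [hblock L]
  refine summable_of_sum_range_le (c := f 0 + (b : ℝ) * x / (1 - x)) hf fun n => ?_
  refine le_trans (sum_le_sum_of_subset_of_nonneg
    (range_subset_range.2 (Nat.lt_pow_self (show 1 < b by omega)).le) fun i _ _ => hf i)
    ((htotal n).trans ?_)
  gcongr
  rw [← mul_sum, div_eq_mul_inv]
  refine mul_le_mul_of_nonneg_left ?_ (by positivity)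
  exact sum_le_hasSum _ (fun i _ => by positivity) (hasSum_geometric_of_lt_one hx0 hx1)

end FA.Denumerant
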