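import Mathlib.Algebra.GCDMonoid.Finset
import Mathlib.Algebra.GCDMonoid.Nat
import Mathlib.Analysis.SpecificLimits.Basic
import Mathlib.Data.Fintype.Pi
import Mathlib.Tactic

/-!
# Schur's denumerant asymptotic

By induction on the number of parts, with an explicit error of one lower order: the possible
multiplicities of a new part form one arithmetic progression, and power sums are telescoped.
-/

set_option autoImplicit false

open Finset Filter Topology

namespace FA.Denumerant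

/-- The representations of `n` by the parts `a`. -/
def reps {k : ℕ} (a : Fin k → ℕ) (n : ℕ) : Finset (Fin k → ℕ) :=
  (Fintype.piFinset fun _ => range (n + 1)).filter fun x => ∑ i, a i * x i = n

theorem mem_reps {k : ℕ} {a : Fin k → ℕ} (ha : ∀ i, 0 < a i) {n : ℕ} {x : Fin k → ℕ} :
    x ∈ reps a n ↔ ∑ i, a i * x i = n := by
  simp only [reps, mem_filter, Fintype.mem_piFinset, mem_range, and_iff_right_iff_imp]
  intro h i
  have := single_le_sum (f := fun j => a j * x j) (fun j _ => Nat.zero_le _) (mem_univ i)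
  have := Nat.le_mul_of_pos_left (x i) (ha i)
  omega

theorem ncard_reps {k : ℕ} {a : Fin k → ℕ} (ha : ∀ i, 0 < a i) (n : ℕ) :
    {x : Fin k → ℕ | ∑ i, a i * x i = n}.ncard = #(reps a n) := by
  rw [← Set.ncard_coe_finset]
  congr 1
  ext x
  simp [mem_reps ha]

theorem dvd_of_mem_reps {k : ℕ} {a : Fin k → ℕ} (ha : ∀ i, 0 < a i) {n : ℕ}
    {x : Fin k → ℕ} (hx : x ∈ reps a n) : univ.gcd a ∣ n := by
  rw [← (mem_reps ha).1 hx]
  exact dvd_sum fun i _ => (gcd_dvd (mem_univ i)).mul_right _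

theorem card_reps_succ {k : ℕ} {a : Fin (k + 1) → ℕ} (ha : ∀ i, 0 < a i) (n : ℕ) :
    #(reps a n) = ∑ t ∈ (range (n + 1)).filter (fun t => a 0 * t ≤ n),
      #(reps (Fin.tail a) (n - a 0 * t)) := by
  rw [card_eq_sum_card_fiberwise (f := fun x => x 0)
    (t := (range (n + 1)).filter fun t => a 0 * t ≤ n)]
  · refine sum_congr rfl fun t ht => ?_
    refine card_nbij' Fin.tail (fun y => (Fin.cons t y : Fin (k + 1) → ℕ)) ?_ ?_ ?_ ?_
    · intro x hx
      obtain ⟨h1, h2⟩ := mem_filter.1 hx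
      rw [mem_reps ha, Fin.sum_univ_succ, h2] at h1
      refine (mem_reps fun i => ha i.succ).2 ?_
      simp only [Fin.tail]
      omega
    · intro y hy
      rw [Finset.mem_coe, mem_reps (a := Fin.tail a) fun i => ha i.succ] at hy
      refine mem_filter.2 ⟨(mem_reps ha).2 ?_, rfl⟩
      have := (mem_filter.1 ht).2
      simp only [Fin.sum_univ_succ, Fin.cons_zero, Fin.cons_succ]
      simp only [Fin.tail] at hy
      omega
    · intro x hx
      show Fin.cons t (Fin.tail x) = x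
      rw [← (mem_filter.1 hx).2, Fin.cons_self_tail]
    · intro y _
      rw [Fin.tail_cons]
  · intro x hx
    rw [Finset.mem_coe, mem_reps ha, Fin.sum_univ_succ] at hx
    have := Nat.le_mul_of_pos_left (x 0) (ha 0)
    simp only [Finset.mem_coe, mem_filter, mem_range]
    omega

theorem gcd_succ {k : ℕ} (a : Fin (k + 1) → ℕ) :
    univ.gcd a = Nat.gcd (a 0) (univ.gcd (Fin.tail a)) := by
  refine Nat.dvd_antisymm (Nat.dvd_gcd (gcd_dvd (mem_univ 0))
    (Finset.dvd_gcd fun i _ => gcd_dvd (mem_univ i.succ))) (Finset.dvd_gcd fun i _ => ?_)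
  refine Fin.cases (Nat.gcd_dvd_left _ _) (fun j => ?_) i
  exact (Nat.gcd_dvd_right _ _).trans (gcd_dvd (mem_univ j))

theorem pow_succ_bounds {u v : ℝ} (hu : 0 ≤ u) (huv : u ≤ v) (m : ℕ) :
    ((m : ℝ) + 1) * u ^ m * (v - u) ≤ v ^ (m + 1) - u ^ (m + 1) ∧
      v ^ (m + 1) - u ^ (m + 1) ≤ ((m : ℝ) + 1) * v ^ m * (v - u) := by
  have hv : 0 ≤ v := hu.trans huv
  rw [← geom_sum₂_mul v u (m + 1)]
  have hterm : ∀ i ∈ range (m + 1),
      u ^ m ≤ v ^ i * u ^ (m + 1 - 1 - i) ∧ v ^ i * u ^ (m + 1 - 1 - i) ≤ v ^ m := by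
    intro i hi
    obtain ⟨c, hc⟩ := Nat.exists_eq_add_of_le (Nat.lt_succ_iff.1 (mem_range.1 hi))
    rw [show m + 1 - 1 - i = c by omega, hc, pow_add, pow_add]
    exact ⟨by gcongr, by gcongr⟩
  constructor <;> refine mul_le_mul_of_nonneg_right ?_ (sub_nonneg.2 huv)
  · have h := card_nsmul_le_sum _ _ _ fun i hi => (hterm i hi).1
    rw [card_range, nsmul_eq_mul] at h
    push_cast at h
    exact h
  · have h := sum_le_card_nsmul _ _ _ fun i hi => (hterm i hi).2
    rw [card_range, nsmul_eq_mul] at h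
    push_cast at h
    exact h

theorem powerSum_bounds {r D : ℝ} (hr : 0 ≤ r) (hD : 0 ≤ D) (m q : ℕ) :
    (r + D * q) ^ (m + 1) - r ^ (m + 1) ≤
        ((m : ℝ) + 1) * D * (∑ j ∈ range (q + 1), (r + D * j) ^ m - r ^ m) ∧
      ((m : ℝ) + 1) * D * (∑ j ∈ range (q + 1), (r + D * j) ^ m - (r + D * q) ^ m) ≤
        (r + D * q) ^ (m + 1) - r ^ (m + 1) := by
  induction q with
  | zero => simp
  | succ q ih =>
    have h := pow_succ_bounds (u := r + D * q) (v := r + D * (q + 1 : ℕ)) (by positivity)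
      (by push_cast; linarith) m
    rw [show r + D * ((q + 1 : ℕ) : ℝ) - (r + D * q) = D by push_cast; ring] at h
    rw [sum_range_succ _ (q + 1)]
    constructor <;> linarith [h.1, h.2, ih.1, ih.2]

theorem powerSum_error {r D : ℕ} (hr : r < D) (m q : ℕ) :
    |((m : ℝ) + 1) * D * ∑ j ∈ range (q + 1), ((r + D * j : ℕ) : ℝ) ^ m -
        ((r + D * q : ℕ) : ℝ) ^ (m + 1)| ≤ ((m : ℝ) + 2) * D * ((r + D * q : ℕ) : ℝ) ^ m := by
  push_cast
  obtain ⟨h1, h2⟩ := powerSum_bounds (r := (r : ℝ)) (D := (D : ℝ)) r.cast_nonneg D.cast_nonneg m q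
  have h3 : (r : ℝ) ^ (m + 1) ≤ D * ((r : ℝ) + D * q) ^ m := by
    rw [pow_succ']
    gcongr
    exact le_add_of_nonneg_right (by positivity)
  have h4 : (0 : ℝ) ≤ (r : ℝ) ^ (m + 1) := by positivity
  have h5 : (0 : ℝ) ≤ D * (r : ℝ) ^ m := by positivity
  have h6 : (0 : ℝ) ≤ ((m : ℝ) + 1) * (D * (r : ℝ) ^ m) := by positivity
  have h7 : (0 : ℝ) ≤ ((m : ℝ) + 1) * (D * ((r : ℝ) + D * q) ^ m) := by positivity
  rw [abs_le]
  constructor <;> linarith

theorem congruence_solutions {a d n : ℕ} (hd : 0 < d) (hn : Nat.gcd a d ∣ n) :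
    ∃ t₀ e, t₀ < e ∧ d = Nat.gcd a d * e ∧
      ∀ t : ℕ, ((d : ℤ) ∣ (n : ℤ) - a * t ↔ ∃ j, t = t₀ + e * j) := by
  obtain ⟨g, h, e, hg, hcop, ha, he⟩ := Nat.exists_coprime' (Nat.gcd_pos_of_pos_right a hd)
  have hge : Nat.gcd a d = g := by
    rw [ha, he, Nat.gcd_mul_right, hcop.gcd_eq_one, one_mul]
  rw [hge] at hn ⊢
  obtain ⟨q, rfl⟩ := hn
  have hepos : 0 < e := Nat.pos_of_ne_zero fun e0 => by
    rw [e0, zero_mul] at he
    omega
  obtain ⟨A, B, hAB⟩ : IsCoprime (h : ℤ) e := Nat.Coprime.isCoprime hcop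
  obtain ⟨t₀, ht₀⟩ : ∃ t₀ : ℕ, (t₀ : ℤ) = A * q % e :=
    ⟨(A * q % e).toNat, Int.toNat_of_nonneg (Int.emod_nonneg _ (by omega))⟩
  have hlt : t₀ < e := by
    have := Int.emod_lt_of_pos (A * q) (show (0 : ℤ) < e by omega)
    omega
  refine ⟨t₀, e, hlt, by rw [he, mul_comm], fun t => ?_⟩
  have hg0 : (g : ℤ) ≠ 0 := by omega
  rw [he, ha]
  push_cast
  rw [show (g : ℤ) * q - h * g * t = ((q : ℤ) - h * t) * g by ring, mul_dvd_mul_iff_right hg0]
  have hdef := Int.mul_ediv_add_emod (A * q) e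
  rw [← ht₀] at hdef
  constructor
  · rintro ⟨c, hc⟩
    have hdvd : (e : ℤ) ∣ (t : ℤ) - t₀ :=
      ⟨B * t - A * c + (A * q / e), by linear_combination -(t : ℤ) * hAB - A * hc - hdef⟩
    obtain ⟨j, hj⟩ := hdvd
    have hj0 : 0 ≤ j := by
      by_contra hneg
      have : (e : ℤ) * j ≤ -(e : ℤ) := by nlinarith
      omega
    obtain ⟨j, rfl⟩ := Int.eq_ofNat_of_zero_le hj0
    exact ⟨j, by exact_mod_cast (show (t : ℤ) = t₀ + e * j by linarith)⟩
  · rintro ⟨j, rfl⟩
    push_cast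
    exact ⟨B * q + h * (A * q / e) - h * j,
      by linear_combination -(q : ℤ) * hAB - (h : ℤ) * hdef⟩

theorem denumerant_bound (m : ℕ) : ∀ a : Fin (m + 1) → ℕ, (∀ i, 0 < a i) →
    ∃ C : ℝ, 0 ≤ C ∧ ∀ n : ℕ, univ.gcd a ∣ n →
      |(#(reps a n) : ℝ) - (univ.gcd a : ℕ) / ((m.factorial : ℝ) * ∏ i, (a i : ℝ)) * (n : ℝ) ^ m| ≤
        C * m * ((n : ℝ) + 1) ^ (m - 1) := by
  induction m with
  | zero =>
    intro a ha
    refine ⟨0, le_rfl, fun n hn => ?_⟩
    have hg : univ.gcd a = a 0 := by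
      rw [gcd_succ, univ_eq_empty, gcd_empty, Nat.gcd_zero_right]
    rw [hg] at hn ⊢
    obtain ⟨c, rfl⟩ := hn
    have h1 : reps a (a 0 * c) = {fun _ => c} := by
      ext x
      rw [mem_reps ha, mem_singleton, Fin.sum_univ_one]
      refine ⟨fun h => funext fun i => ?_, fun h => by rw [h]⟩
      rw [Fin.eq_zero i]
      exact Nat.eq_of_mul_eq_mul_left (ha 0) h
    have : (a 0 : ℝ) ≠ 0 := Nat.cast_ne_zero.2 (ha 0).ne'
    simp [h1, this]
  | succ m ih =>
    intro a ha
    obtain ⟨C, hC0, hC⟩ := ih (Fin.tail a) fun i => ha i.succ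
    set d := univ.gcd (Fin.tail a) with hd
    have hdpos : 0 < d := by
      have := gcd_dvd (f := Fin.tail a) (mem_univ (0 : Fin (m + 1)))
      exact Nat.pos_of_dvd_of_pos this (ha _)
    set P : ℝ := ∏ i, (Fin.tail a i : ℝ) with hP
    have hPpos : 0 < P := prod_pos fun i _ => Nat.cast_pos.2 (ha _)
    set c : ℝ := (d : ℝ) / ((m.factorial : ℝ) * P) with hc
    have hc0 : 0 < c := div_pos (Nat.cast_pos.2 hdpos) (by positivity)
    set g := Nat.gcd (a 0) d with hg
    set c' : ℝ := (g : ℝ) / (((m + 1).factorial : ℝ) * ∏ i, (a i : ℝ)) with hc'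
    set Dm : ℕ := a 0 * d with hDm
    have hc'0 : 0 ≤ c' := by rw [hc']; positivity
    refine ⟨C * m + c * (m + 2) + c' * (m + 1) * Dm, by positivity, fun n hn => ?_⟩
    rw [gcd_succ] at hn ⊢
    obtain ⟨t₀, e, hte, hde, ht⟩ := congruence_solutions hdpos hn
    have hepos : 0 < e := by omega
    set D := a 0 * e with hD
    have hDpos : 0 < D := Nat.mul_pos (ha 0) hepos
    have hDle : (D : ℝ) ≤ Dm := by
      rw [hD, hDm]
      exact_mod_cast Nat.mul_le_mul_left _
        (Nat.le_of_dvd hdpos ⟨g, by rw [hde, mul_comm]⟩)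
    have hcc : c' * (((m : ℝ) + 1) * D) = c := by
      have hge : (d : ℝ) = g * e := by exact_mod_cast hde
      have : (a 0 : ℝ) ≠ 0 := Nat.cast_ne_zero.2 (ha 0).ne'
      rw [hc', hc, Fin.prod_univ_succ, ← hge.symm, hD, Nat.factorial_succ]
      simp only [hP, Fin.tail] at hPpos ⊢
      push_cast
      field_simp
    have hn1 : (n : ℝ) ^ m ≤ ((n : ℝ) + 1) ^ m := by
      gcongr
      linarith
    rw [show m + 1 - 1 = m from rfl]
    refine le_trans ?_ (show (C * m + c * (m + 2) + c' * (m + 1) * Dm) * ((n : ℝ) + 1) ^ m ≤ _ by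
      refine mul_le_mul_of_nonneg_right (le_mul_of_one_le_right (by positivity) ?_) (by positivity)
      exact_mod_cast Nat.succ_pos m)
    rw [← hc', card_reps_succ ha, Nat.cast_sum]
    by_cases hM : n < a 0 * t₀
    · rw [sum_eq_zero fun t htm => ?_]
      · rw [zero_sub, abs_neg, abs_of_nonneg (by positivity), pow_succ]
        have hnD : (n : ℝ) ≤ D := by
          rw [hD]
          exact_mod_cast hM.le.trans (Nat.mul_le_mul_left _ hte.le)
        calc c' * ((n : ℝ) ^ m * n) ≤ c' * (((n : ℝ) + 1) ^ m * Dm) := by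
              gcongr
              exact_mod_cast hnD.trans hDle
          _ = c' * 1 * Dm * ((n : ℝ) + 1) ^ m := by ring
          _ ≤ c' * (m + 1) * Dm * ((n : ℝ) + 1) ^ m := by
              gcongr
              linarith [Nat.cast_nonneg (α := ℝ) m]
          _ ≤ _ := by
              gcongr
              have : 0 ≤ C * m + c * (m + 2) := by positivity
              linarith
      · obtain ⟨-, htn⟩ := mem_filter.1 htm
        rw [Nat.cast_eq_zero, card_eq_zero, eq_empty_iff_forall_notMem]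
        intro x hx
        have hdvd := Int.natCast_dvd_natCast.2
          (dvd_of_mem_reps (a := Fin.tail a) (fun i => ha i.succ) hx)
        rw [← hd, Nat.cast_sub htn, Nat.cast_mul, ht] at hdvd
        obtain ⟨j, rfl⟩ := hdvd
        rw [mul_add] at htn
        omega
    rw [not_lt] at hM
    set M := n - a 0 * t₀ with hMdef
    set q := M / D with hq
    set r := M % D with hr
    have hrq : r + D * q = M := Nat.mod_add_div M D
    have hsum : ∑ t ∈ (range (n + 1)).filter (fun t => a 0 * t ≤ n),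
        (#(reps (Fin.tail a) (n - a 0 * t)) : ℝ) =
          ∑ j ∈ range (q + 1), (#(reps (Fin.tail a) (r + D * j)) : ℝ) := by
      rw [← sum_range_reflect (fun j => (#(reps (Fin.tail a) (r + D * j)) : ℝ))]
      symm
      refine sum_of_injOn (fun j => t₀ + e * j) ?_ ?_ ?_ ?_
      · intro i _ j _ h
        exact Nat.eq_of_mul_eq_mul_left hepos (Nat.add_left_cancel h)
      · intro j hj
        have hjq : j ≤ q := Nat.lt_succ_iff.1 (mem_range.1 hj)
        have : a 0 * (t₀ + e * j) ≤ n := by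
          rw [mul_add, ← mul_assoc, ← hD]
          have := Nat.mul_le_mul_left D hjq
          omega
        simp only [Finset.mem_coe, mem_filter, mem_range]
        have := Nat.le_mul_of_pos_left (t₀ + e * j) (ha 0)
        omega
      · intro t htm hnot
        obtain ⟨-, htn⟩ := mem_filter.1 htm
        rw [Nat.cast_eq_zero, card_eq_zero, eq_empty_iff_forall_notMem]
        intro x hx
        have hdvd := Int.natCast_dvd_natCast.2
          (dvd_of_mem_reps (a := Fin.tail a) (fun i => ha i.succ) hx)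
        rw [← hd, Nat.cast_sub htn, Nat.cast_mul, ht] at hdvd
        obtain ⟨j, rfl⟩ := hdvd
        refine hnot ⟨j, mem_range.2 (Nat.lt_succ_of_le ?_), rfl⟩
        rw [hq, Nat.le_div_iff_mul_le hDpos, hD]
        rw [mul_add, ← mul_assoc] at htn
        rw [mul_comm j]
        omega
      · intro j hj
        have hjq : j ≤ q := Nat.lt_succ_iff.1 (mem_range.1 hj)
        have hkey : n - a 0 * (t₀ + e * j) = r + D * (q + 1 - 1 - j) := by
          obtain ⟨i, hi⟩ := Nat.exists_eq_add_of_le hjq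
          rw [show q + 1 - 1 - j = i by omega, mul_add, ← mul_assoc, ← hD]
          rw [hi, mul_add] at hrq
          omega
        simp only [hkey]
    rw [hsum]
    have hterm : ∀ j ∈ range (q + 1),
        |(#(reps (Fin.tail a) (r + D * j)) : ℝ) - c * ((r + D * j : ℕ) : ℝ) ^ m| ≤
          C * m * ((n : ℝ) + 1) ^ (m - 1) := by
      intro j hj
      have hjq : j ≤ q := Nat.lt_succ_iff.1 (mem_range.1 hj)
      have hle : r + D * j ≤ n := by
        have := Nat.mul_le_mul_left D hjq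
        omega
      have hdvd : d ∣ r + D * j := by
        have h1 : d ∣ M := by
          refine Int.natCast_dvd_natCast.1 ?_
          rw [hMdef, Nat.cast_sub hM, Nat.cast_mul, ht]
          exact ⟨0, by ring⟩
        have h2 : d ∣ D := ⟨a 0 / g, by
          rw [hD, hde, hg, mul_assoc, mul_comm e, ← mul_assoc, Nat.mul_div_cancel'
            (Nat.gcd_dvd_left _ _)]⟩
        rw [← hrq] at h1
        exact ((Nat.dvd_add_left (h2.mul_right q)).1 h1).add (h2.mul_right j)
      refine (hC _ hdvd).trans ?_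
      gcongr
    have hMn : (M : ℝ) ≤ n := by exact_mod_cast Nat.sub_le _ _
    have hnM : (n : ℝ) - M ≤ Dm := by
      rw [hMdef, Nat.cast_sub hM, sub_sub_cancel]
      refine le_trans ?_ hDle
      rw [hD]
      exact_mod_cast Nat.mul_le_mul_left _ hte.le
    have hpow : (n : ℝ) ^ (m + 1) - (M : ℝ) ^ (m + 1) ≤ ((m : ℝ) + 1) * Dm * ((n : ℝ) + 1) ^ m :=
      calc _ ≤ ((m : ℝ) + 1) * (n : ℝ) ^ m * ((n : ℝ) - M) :=
            (pow_succ_bounds M.cast_nonneg hMn m).2
        _ ≤ ((m : ℝ) + 1) * ((n : ℝ) + 1) ^ m * Dm := by gcongr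
        _ = _ := by ring
    have hpowle : (M : ℝ) ^ (m + 1) ≤ (n : ℝ) ^ (m + 1) := by gcongr
    have hps : |((m : ℝ) + 1) * D * ∑ j ∈ range (q + 1), ((r + D * j : ℕ) : ℝ) ^ m -
        (M : ℝ) ^ (m + 1)| ≤ ((m : ℝ) + 2) * D * ((n : ℝ) + 1) ^ m := by
      rw [← hrq]
      refine (powerSum_error (Nat.mod_lt _ hDpos) m q).trans ?_
      gcongr
      rw [hrq]
      linarith
    have hcount : ((q + 1 : ℕ) : ℝ) ≤ (n : ℝ) + 1 := by
      have : q ≤ n := (Nat.div_le_self _ _).trans (Nat.sub_le _ _)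
      exact_mod_cast Nat.succ_le_succ this
    have h1 : |∑ j ∈ range (q + 1), (#(reps (Fin.tail a) (r + D * j)) : ℝ) -
        c * ∑ j ∈ range (q + 1), ((r + D * j : ℕ) : ℝ) ^ m| ≤ C * m * ((n : ℝ) + 1) ^ m := by
      rw [mul_sum, ← sum_sub_distrib]
      refine (abs_sum_le_sum_abs _ _).trans ((sum_le_card_nsmul _ _ _ hterm).trans ?_)
      rw [card_range, nsmul_eq_mul]
      rcases m with _ | m
      · simp
      · rw [show m + 1 - 1 = m from rfl, pow_succ _ m]
        calc _ ≤ ((n : ℝ) + 1) * (C * (m + 1 : ℕ) * ((n : ℝ) + 1) ^ m) := by gcongr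
          _ = _ := by ring
    have h2 : |c * ∑ j ∈ range (q + 1), ((r + D * j : ℕ) : ℝ) ^ m - c' * (M : ℝ) ^ (m + 1)| ≤
        c * (m + 2) * ((n : ℝ) + 1) ^ m := by
      rw [← hcc, show c' * (((m : ℝ) + 1) * D) * _ - c' * (M : ℝ) ^ (m + 1) =
        c' * (((m : ℝ) + 1) * D * ∑ j ∈ range (q + 1), ((r + D * j : ℕ) : ℝ) ^ m -
          (M : ℝ) ^ (m + 1)) by ring, abs_mul, abs_of_nonneg hc'0]
      calc _ ≤ c' * (((m : ℝ) + 2) * D * ((n : ℝ) + 1) ^ m) := by gcongr
        _ ≤ c' * (((m : ℝ) + 1) * D) * ((m : ℝ) + 2) * ((n : ℝ) + 1) ^ m := by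
          have : (0 : ℝ) ≤ c' * D * (((m : ℝ) + 2) * ((n : ℝ) + 1) ^ m) * m := by positivity
          linarith
    have h3 : |c' * (M : ℝ) ^ (m + 1) - c' * (n : ℝ) ^ (m + 1)| ≤
        c' * (m + 1) * Dm * ((n : ℝ) + 1) ^ m := by
      rw [← mul_sub, abs_mul, abs_of_nonneg hc'0, abs_sub_comm,
        abs_of_nonneg (sub_nonneg.2 hpowle), mul_assoc c', mul_assoc c']
      exact mul_le_mul_of_nonneg_left hpow hc'0
    refine le_trans (abs_sub_le _ (c' * (M : ℝ) ^ (m + 1)) _) (le_trans (add_le_add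
      (abs_sub_le _ (c * ∑ j ∈ range (q + 1), ((r + D * j : ℕ) : ℝ) ^ m) _) le_rfl) ?_)
    linarith

theorem schur {m : ℕ} (a : Fin (m + 1) → ℕ) (ha : ∀ i, 0 < a i) (hgcd : univ.gcd a = 1) :
    Tendsto (fun n : ℕ => ({x : Fin (m + 1) → ℕ | ∑ i, a i * x i = n}.ncard : ℝ) / (n : ℝ) ^ m)
      atTop (𝓝 (1 / ((m.factorial : ℝ) * ∏ i, (a i : ℝ)))) := by
  simp_rw [ncard_reps ha]
  obtain ⟨C, hC0, hC⟩ := denumerant_bound m a ha
  rw [hgcd, Nat.cast_one] at hC
  rw [tendsto_iff_dist_tendsto_zero]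
  refine squeeze_zero' (Eventually.of_forall fun n => dist_nonneg) ?_
    (tendsto_const_div_atTop_nhds_zero_nat (C * m * 2 ^ m))
  filter_upwards [eventually_ge_atTop 1] with n hn
  have hn' : (1 : ℝ) ≤ n := Nat.one_le_cast.2 hn
  have hpow : (0 : ℝ) < (n : ℝ) ^ m := pow_pos (by linarith) m
  rw [Real.dist_eq, div_sub' hpow.ne', abs_div, abs_of_pos hpow, div_le_div_iff₀ hpow (by linarith),
    mul_comm ((n : ℝ) ^ m)]
  refine (mul_le_mul_of_nonneg_right (hC n (one_dvd n)) (by linarith)).trans ?_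
  rcases m with _ | m
  · simp
  · rw [show m + 1 - 1 = m from rfl, mul_assoc, mul_assoc (C * _)]
    refine mul_le_mul_of_nonneg_left ?_ (by positivity)
    calc ((n : ℝ) + 1) ^ m * n ≤ (2 * (n : ℝ)) ^ m * (2 * n) := by gcongr <;> linarith
      _ = 2 ^ (m + 1) * (n : ℝ) ^ (m + 1) := by ring

end FA.Denumerant
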